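import Fermat.Agent.Capelli.Main
import Mathlib.Algebra.Polynomial.SpecificDegree
import Mathlib.FieldTheory.Finite.Basic
import Mathlib.NumberTheory.LegendreSymbol.QuadraticChar.Basic

/-!
# Irreducible binomials and substitutions over a finite field

`T ^ (l ^ j) - a` is irreducible when `a` is not an `l`-th power (`4 ∣ q - 1` for `l = 2`), and so
is `f (T ^ (l ^ j))` for an irreducible `f` of degree `n ≥ 2` when `l (q - 1) = q ^ n - 1`.
-/

set_option autoImplicit false
set_option linter.style.openClassical false
set_option linter.style.haveILetI false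
set_option linter.unusedSectionVars false

noncomputable section

open scoped Classical

namespace FA.TwinIrreducibles

open Polynomial
open scoped IntermediateField

universe u

variable {k : Type u} [Field k] [Fintype k]

/-- An element fixed by the Frobenius of `k` lies in `k`. -/
theorem mem_range_of_pow_card_eq {L : Type*} [Field L] [Algebra k L] {x : L}
    (hx : x ^ Fintype.card k = x) : x ∈ Set.range (algebraMap k L) := by
  by_contra hno
  set S : Finset L := Finset.univ.image (algebraMap k L)
  have hS : S.card = Fintype.card k := by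
    rw [Finset.card_image_of_injective _ (algebraMap k L).injective, Finset.card_univ]
  have hxS : x ∉ S := fun h => by
    obtain ⟨a, -, ha⟩ := Finset.mem_image.mp h
    exact hno ⟨a, ha⟩
  have hne : (X ^ Fintype.card k - X : L[X]) ≠ 0 :=
    FiniteField.X_pow_card_sub_X_ne_zero L Fintype.one_lt_card
  have h := card_le_degree_of_subset_roots (p := (X ^ Fintype.card k - X : L[X]))
    (Z := insert x S) fun y hy => by
      rw [mem_roots hne, IsRoot, eval_sub, eval_pow, eval_X, sub_eq_zero]
      rcases Finset.mem_insert.mp hy with rfl | hy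
      · exact hx
      · obtain ⟨a, -, rfl⟩ := Finset.mem_image.mp hy
        rw [← map_pow, FiniteField.pow_card]
  rw [Finset.card_insert_of_notMem hxS, hS,
    FiniteField.X_pow_card_sub_X_natDegree_eq L Fintype.one_lt_card] at h
  omega

/-- **Irreducible binomials.** -/
theorem irreducible_binomial {l : ℕ} (hl : l.Prime) (h2 : l = 2 → 4 ∣ Fintype.card k - 1) {a : k}
    (ha : ∀ b, b ^ l ≠ a) (j : ℕ) : Irreducible (X ^ l ^ j - C a) := by
  refine Capelli.irreducible_of_good _ (pow_pos hl.pos _) ⟨fun p hp hpd => ?_, fun h4 b hb => ?_⟩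
  · rwa [(Nat.prime_dvd_prime_iff_eq hp hl).mp (hp.dvd_of_dvd_pow hpd)]
  have hl2 : l = 2 := ((Nat.prime_dvd_prime_iff_eq Nat.prime_two hl).mp
    (Nat.prime_two.dvd_of_dvd_pow ((dvd_mul_left 2 2).trans h4))).symm
  obtain ⟨i, hi⟩ : IsSquare (-1 : k) := FiniteField.isSquare_neg_one_iff.mpr (by
    have := h2 hl2; have := Fintype.one_lt_card (α := k); omega)
  refine ha (2 * i * b ^ 2) ?_
  rw [hl2, hb]
  linear_combination (-(4 * b ^ 4)) * hi

/-- **Substitution of `T ^ (l ^ j)`.** -/
theorem irreducible_comp_X_pow {l n : ℕ} (hl : l.Prime) (hodd : l ≠ 2) {f : k[X]} (hf : f.Monic)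
    (hi : Irreducible f) (hn : f.natDegree = n) (hn2 : 2 ≤ n)
    (hln : l * (Fintype.card k - 1) = Fintype.card k ^ n - 1) (j : ℕ) :
    Irreducible (f.comp (X ^ l ^ j)) := by
  refine irreducible_comp hf (monic_X_pow _) hi fun E _ _ x hx => ?_
  rw [Polynomial.map_pow, map_X]
  refine X_pow_sub_C_irreducible_of_prime_pow hl hodd j fun b hb => ?_
  have hint : IsIntegral k x := not_not.mp fun h => by
    rw [minpoly.eq_zero h] at hx
    exact hi.ne_zero hx.symm
  have hdim : Module.finrank k k⟮x⟯ = n := by rw [IntermediateField.adjoin.finrank hint, hx, hn]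
  haveI : Module.Finite k k⟮x⟯ := Module.finite_of_finrank_pos (by omega)
  haveI : Finite k⟮x⟯ := Module.finite_of_finite k
  haveI := Fintype.ofFinite k⟮x⟯
  have hgen : IntermediateField.AdjoinSimple.gen k x ≠ 0 := fun h => by
    have h1 := IntermediateField.minpoly_gen k x
    rw [h, minpoly.zero, hx] at h1
    have := congrArg natDegree h1
    rw [natDegree_X, hn] at this
    omega
  have hb0 : b ≠ 0 := fun h => hgen (by rw [← hb, h, zero_pow hl.pos.ne'])
  have hq := Fintype.one_lt_card (α := k)
  have hfix : IntermediateField.AdjoinSimple.gen k x ^ Fintype.card k =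
      IntermediateField.AdjoinSimple.gen k x := by
    rw [← hb, ← pow_mul, show l * Fintype.card k = l * (Fintype.card k - 1) + l by
      rw [← Nat.mul_succ]; congr 1; omega, pow_add, hln, ← hdim, ← Module.card_eq_pow_finrank,
      FiniteField.pow_card_sub_one_eq_one _ hb0, one_mul]
  obtain ⟨c, hc⟩ := mem_range_of_pow_card_eq hfix
  have h1 := IntermediateField.minpoly_gen k x
  rw [← hc, minpoly.eq_X_sub_C, hx] at h1
  have := congrArg natDegree h1
  rw [natDegree_X_sub_C, hn] at this
  omega

/-- A monic polynomial of degree two or three without roots is irreducible. -/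
theorem irreducible_of_no_root {f : k[X]} (hf : f.Monic) (h2 : 2 ≤ f.natDegree)
    (h3 : f.natDegree ≤ 3) (h : ∀ x, f.eval x ≠ 0) : Irreducible f :=
  (hf.irreducible_iff_roots_eq_zero_of_degree_le_three h2 h3).mpr
    (Multiset.eq_zero_of_forall_notMem fun x hx => h x (mem_roots hf.ne_zero |>.mp hx))

/-- Few `l`-th powers. -/
theorem card_powers_le {l : ℕ} (hl : l ∣ Fintype.card k - 1) :
    (Finset.univ.filter fun a : k => ∃ b, b ^ l = a).card ≤ (Fintype.card k - 1) / l + 1 := by
  set e := (Fintype.card k - 1) / l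
  have hle : l * e = Fintype.card k - 1 := Nat.mul_div_cancel' hl
  refine le_trans (Finset.card_le_card (t := insert 0 (nthRoots e (1 : k)).toFinset) ?_) ?_
  · intro a ha
    obtain ⟨b, rfl⟩ := (Finset.mem_filter.mp ha).2
    rw [Finset.mem_insert, Multiset.mem_toFinset]
    rcases eq_or_ne (b ^ l) 0 with h | h
    · exact Or.inl h
    right
    have he : 0 < e := Nat.pos_of_ne_zero fun h0 => by
      have := Fintype.one_lt_card (α := k); rw [h0, mul_zero] at hle; omega
    have hl0 : l ≠ 0 := fun h0 => by
      have := Fintype.one_lt_card (α := k); rw [h0, zero_mul] at hle; omega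
    rw [mem_nthRoots he, ← pow_mul, hle,
      FiniteField.pow_card_sub_one_eq_one b fun h0 => h (by rw [h0, zero_pow hl0])]
  · exact (Finset.card_insert_le _ _).trans
      (Nat.add_le_add_right ((Multiset.toFinset_card_le _).trans (card_nthRoots _ _)) 1)

/-- **Shifts avoiding the powers**, when there are few of them. -/
theorem exists_forall_not_pow {l r : ℕ} (hl : l ∣ Fintype.card k - 1) (a : Fin r → k)
    (hcard : r * ((Fintype.card k - 1) / l + 1) < Fintype.card k) :
    ∃ y : k, ∀ i, ∀ b, b ^ l ≠ y - a i := by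
  by_contra! h
  have hsub : (Finset.univ : Finset k) ⊆ Finset.univ.biUnion fun i =>
      (Finset.univ.filter fun x : k => ∃ b, b ^ l = x).image (· + a i) := fun y _ => by
    obtain ⟨i, b, hb⟩ := h y
    exact Finset.mem_biUnion.mpr ⟨i, Finset.mem_univ _, Finset.mem_image.mpr
      ⟨y - a i, Finset.mem_filter.mpr ⟨Finset.mem_univ _, b, hb⟩, sub_add_cancel _ _⟩⟩
  have h1 := (Finset.card_le_card hsub).trans (Finset.card_biUnion_le_card_mul _ _ _ fun i _ =>
    Finset.card_image_le.trans (card_powers_le hl))
  rw [Finset.card_univ, Finset.card_univ, Fintype.card_fin] at h1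
  omega

theorem sum_quadraticChar_mul_shift (h2 : ringChar k ≠ 2) {c : k} (hc : c ≠ 0) :
    ∑ x : k, quadraticChar k x * quadraticChar k (x + c) = -1 := by
  have hkey : ∀ x : k, quadraticChar k x * quadraticChar k (x + c) =
      quadraticChar k (1 + c * x⁻¹) - if x = 0 then 1 else 0 := fun x => by
    rcases eq_or_ne x 0 with rfl | hx
    · simp
    · rw [if_neg hx, sub_zero, ← map_mul,
        show x * (x + c) = x ^ 2 * (1 + c * x⁻¹) by field_simp, map_mul,
        quadraticChar_sq_one' hx, one_mul]
  have hsum : ∑ x : k, quadraticChar k (1 + c * x⁻¹) = 0 := by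
    have hbij : Function.Bijective fun x : k => 1 + c * x⁻¹ :=
      (Equiv.addLeft (1 : k)).bijective.comp
        ((Equiv.mulLeft₀ c hc).bijective.comp inv_involutive.bijective)
    rw [Fintype.sum_bijective _ hbij (fun x => quadraticChar k (1 + c * x⁻¹))
      (fun x => quadraticChar k x) fun x => rfl, quadraticChar_sum_zero h2]
  rw [Finset.sum_congr rfl fun x _ => hkey x, Finset.sum_sub_distrib, hsum, Finset.sum_ite_eq']
  simp

/-- **Two nonsquares with a given difference**, for `q > 5`. -/
theorem exists_two_nonsquares (h2 : ringChar k ≠ 2) (hq : 5 < Fintype.card k) {c : k}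
    (hc : c ≠ 0) : ∃ x : k, (∀ b, b ^ 2 ≠ x) ∧ ∀ b, b ^ 2 ≠ x + c := by
  suffices h : ∃ x : k, quadraticChar k x = -1 ∧ quadraticChar k (x + c) = -1 by
    obtain ⟨x, h1, h3⟩ := h
    exact ⟨x, fun b hb => quadraticChar_neg_one_iff_not_isSquare.mp h1 ⟨b, by rw [← hb, sq]⟩,
      fun b hb => quadraticChar_neg_one_iff_not_isSquare.mp h3 ⟨b, by rw [← hb, sq]⟩⟩
  by_contra! h
  have hle : ∀ x : k, (1 - quadraticChar k x) * (1 - quadraticChar k (x + c)) ≤
      (if x = 0 then 2 else 0) + if x = -c then 2 else 0 := fun x => by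
    rcases eq_or_ne x 0 with rfl | hx
    · rw [if_pos rfl, if_neg (Ne.symm (neg_ne_zero.mpr hc)), zero_add, quadraticChar_zero]
      rcases quadraticChar_dichotomy hc with e | e <;> rw [e] <;> norm_num
    rw [if_neg hx]
    rcases eq_or_ne x (-c) with rfl | hxc
    · rw [if_pos rfl, neg_add_cancel, quadraticChar_zero]
      rcases quadraticChar_dichotomy (neg_ne_zero.mpr hc) with e | e <;> rw [e] <;> norm_num
    rw [if_neg hxc]
    rcases quadraticChar_dichotomy hx with e | e
    · simp [e]
    · have hxc' : x + c ≠ 0 := fun h0 => hxc (eq_neg_of_add_eq_zero_left h0)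
      simp [(quadraticChar_dichotomy hxc').resolve_right (h x e)]
  have hsum := Finset.sum_le_sum fun x (_ : x ∈ (Finset.univ : Finset k)) => hle x
  have hshift : ∑ x : k, quadraticChar k (x + c) = 0 := by
    rw [← quadraticChar_sum_zero h2]
    exact Equiv.sum_comp (Equiv.addRight c) fun x => quadraticChar k x
  simp only [sub_mul, mul_sub, one_mul, mul_one, Finset.sum_sub_distrib, Finset.sum_add_distrib,
    Finset.sum_ite_eq', Finset.mem_univ, if_true, quadraticChar_sum_zero h2, hshift,
    sum_quadraticChar_mul_shift h2 hc, Finset.sum_const, Finset.card_univ, nsmul_eq_mul] at hsum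
  omega

end FA.TwinIrreducibles
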