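import Fermat.Agent.Root.SummaryWeilCharacterSums
import Fermat.Agent.TwinIrreducibles.Criteria
import Mathlib.Data.ZMod.Basic
import Mathlib.NumberTheory.MulChar.Lemmas

/-!
# Twin irreducibles and tuples of irreducibles with constant differences

Twins come from binomials for `q ≥ 7`, and for `q = 3, 4, 5` from substitutions into pairs of
degree `3, 2, 3`; tuples from Weil's patterns of character values.
-/

set_option autoImplicit false
set_option linter.style.openClassical false
set_option linter.style.haveILetI false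
set_option linter.unusedSectionVars false

noncomputable section

open scoped Classical

namespace FA.TwinIrreducibles

open Polynomial

universe u

variable {k : Type u} [Field k] [Fintype k]

/-- A family of growing degree is infinite. -/
theorem infinite_of_natDegree {P : k[X] → Prop} {n l : ℕ} (hn : n ≠ 0) (hl : 1 < l)
    (h : ∀ j : ℕ, ∃ f, P f ∧ f.natDegree = n * l ^ (j + 1)) : {f | P f}.Infinite := by
  choose f hf hd using h
  refine Set.infinite_of_injective_forall_mem (f := f) (fun i j e => ?_) hf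
  have h1 := congrArg natDegree e
  rw [hd, hd] at h1
  have := Nat.pow_right_injective hl (Nat.eq_of_mul_eq_mul_left (Nat.pos_of_ne_zero hn) h1)
  omega

/-- Binomials with consecutive non-powers. -/
theorem infinite_of_not_pow {l r : ℕ} (hl : l.Prime) (h2 : l = 2 → 4 ∣ Fintype.card k - 1)
    (a : Fin r → k) {y : k} (hy : ∀ i, ∀ b, b ^ l ≠ y - a i) :
    {f : k[X] | f.Monic ∧ ∀ i, Irreducible (f + C (a i))}.Infinite := by
  refine infinite_of_natDegree one_ne_zero hl.one_lt fun j => ⟨X ^ l ^ (j + 1) - C y,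
    ⟨monic_X_pow_sub_C _ (pow_ne_zero _ hl.pos.ne'), fun i => ?_⟩,
    by rw [natDegree_X_pow_sub_C, one_mul]⟩
  rw [sub_add, ← C_sub]
  exact irreducible_binomial hl h2 (hy i) (j + 1)

/-- Substitution into an irreducible pair. -/
theorem infinite_of_pair {l n : ℕ} (hl : l.Prime) (hodd : l ≠ 2) (hn2 : 2 ≤ n)
    (hln : l * (Fintype.card k - 1) = Fintype.card k ^ n - 1) {c : k} {f : k[X]} (hf : f.Monic)
    (hdeg : f.natDegree = n) (hi : Irreducible f) (hic : Irreducible (f + C c)) :
    {g : k[X] | g.Monic ∧ Irreducible g ∧ Irreducible (g + C c)}.Infinite := by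
  have hf0 : (0 : ℕ) < f.natDegree := by omega
  have hlt : (C c).degree < f.degree := lt_of_le_of_lt degree_C_le
    (natDegree_pos_iff_degree_pos.mp hf0)
  refine infinite_of_natDegree (n := n) (by omega) hl.one_lt fun j =>
    ⟨f.comp (X ^ l ^ (j + 1)), ⟨hf.comp (monic_X_pow _) (by
      rw [natDegree_X_pow]; exact pow_ne_zero _ hl.pos.ne'),
      irreducible_comp_X_pow hl hodd hf hi hdeg hn2 hln _, ?_⟩,
      by rw [natDegree_comp, natDegree_X_pow, hdeg]⟩
  have h := irreducible_comp_X_pow hl hodd (hf.add_of_left hlt) hic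
    (by rw [natDegree_add_C, hdeg]) hn2 hln (j + 1)
  rwa [add_comp, C_comp] at h

/-- The field with three elements. -/
theorem exists_pair_three (hq : Fintype.card k = 3) {c : k} (hc : c ≠ 0) :
    ∃ f : k[X], f.Monic ∧ f.natDegree = 3 ∧ Irreducible f ∧ Irreducible (f + C c) := by
  have h2 : (2 : k) ≠ 0 := by
    intro h
    haveI := charP_of_card_eq_prime (R := k) (p := 3) hq
    exact absurd ((CharP.cast_eq_zero_iff k 3 2).mp (by exact_mod_cast h)) (by norm_num)
  have hirr : ∀ d : k, d ≠ 0 → Irreducible (X ^ 3 - X + C d) := fun d hd => by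
    have hdeg : (X ^ 3 - X + C d : k[X]).natDegree = 3 := by compute_degree!
    refine irreducible_of_no_root (by monicity!) (by omega) (by omega) fun x => ?_
    have hx : x ^ 3 = x := hq ▸ FiniteField.pow_card x
    simpa [hx] using hd
  refine ⟨X ^ 3 - X + C c, by monicity!, by compute_degree!, hirr c hc, ?_⟩
  rw [add_assoc, ← C_add, ← two_mul]
  exact hirr _ (mul_ne_zero h2 hc)

/-- The field with four elements. -/
theorem exists_pair_four (hq : Fintype.card k = 4) {c : k} (hc : c ≠ 0) :
    ∃ f : k[X], f.Monic ∧ f.natDegree = 2 ∧ Irreducible f ∧ Irreducible (f + C c) := by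
  haveI : CharP k 2 := charP_of_card_eq_prime_pow (f := 2) (by rw [hq]; norm_num)
  have h4 : ∀ x : k, x ^ 4 = x := fun x => hq ▸ FiniteField.pow_card x
  set b := c ^ 2 with hb
  have hb2 : b ^ 2 = c := by rw [hb, ← pow_mul]; exact h4 c
  have hb0 : b ≠ 0 := pow_ne_zero _ hc
  have hirr : ∀ v : k, v ≠ 0 → v ≠ 1 → Irreducible (X ^ 2 + C b * X + C (c * v)) :=
    fun v hv0 hv1 => by
      have hdeg : (X ^ 2 + C b * X + C (c * v) : k[X]).natDegree = 2 := by compute_degree!
      refine irreducible_of_no_root (by monicity!) (by omega) (by omega) fun x hx => ?_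
      set y := x / b
      have hy : c * (y ^ 2 + y + v) = 0 := by
        rw [← hx, ← hb2]
        simp [y]
        field_simp
      have hy' : v = y ^ 2 + y := by
        have := (mul_eq_zero.mp hy).resolve_left hc
        rw [← sub_eq_zero, CharTwo.sub_eq_add]
        linear_combination this
      have hidem : v * v = v := by
        rw [hy']
        linear_combination h4 y + CharTwo.two_eq_zero (R := k) * y ^ 3
      rcases eq_or_ne v 0 with h | h
      · exact hv0 h
      · exact hv1 (mul_left_cancel₀ h (hidem.trans (mul_one v).symm))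
  obtain ⟨ω, hω0, hω1⟩ : ∃ ω : k, ω ≠ 0 ∧ ω ≠ 1 := by
    by_contra! h
    have h1 : (Finset.univ : Finset k) ⊆ {0, 1} := fun x _ => by
      rcases eq_or_ne x 0 with e | e
      · simp [e]
      · simp [h x e]
    have h3 := (Finset.card_le_card h1).trans Finset.card_le_two
    rw [Finset.card_univ, hq] at h3
    omega
  refine ⟨X ^ 2 + C b * X + C (c * ω), by monicity!, by compute_degree!, hirr ω hω0 hω1, ?_⟩
  rw [add_assoc, ← C_add, show c * ω + c = c * (ω + 1) by ring]
  exact hirr _ (fun h => hω1 (by rwa [← CharTwo.sub_eq_add, sub_eq_zero] at h)) fun h =>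
    hω0 (by simpa using h)

/-- The field with five elements. -/
theorem exists_pair_five (hq : Fintype.card k = 5) {c : k} (hc : c ≠ 0) :
    ∃ f : k[X], f.Monic ∧ f.natDegree = 3 ∧ Irreducible f ∧ Irreducible (f + C c) := by
  let e : ZMod 5 ≃+* k := ZMod.ringEquivOfPrime k (by norm_num) hq
  obtain ⟨z, rfl⟩ := e.surjective c
  have hz : z ≠ 0 := fun h => hc (by rw [h, map_zero])
  have hall : ∀ z : ZMod 5, z ≠ 0 → ∃ a d : ZMod 5,
      ∀ x : ZMod 5, x ^ 3 + a * x + d ≠ 0 ∧ x ^ 3 + a * x + (d + z) ≠ 0 := by decide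
  obtain ⟨a, d, hx⟩ := hall z hz
  have hirr : ∀ v : ZMod 5, (∀ x : ZMod 5, x ^ 3 + a * x + v ≠ 0) →
      Irreducible (X ^ 3 + C (e a) * X + C (e v)) := fun v hv => by
    have hdeg : (X ^ 3 + C (e a) * X + C (e v) : k[X]).natDegree = 3 := by compute_degree!
    refine irreducible_of_no_root (by monicity!) (by omega) (by omega) fun x hx0 => ?_
    obtain ⟨x, rfl⟩ := e.surjective x
    exact hv x (e.injective (by simpa using hx0))
  refine ⟨X ^ 3 + C (e a) * X + C (e d), by monicity!, by compute_degree!,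
    hirr d fun x => (hx x).1, ?_⟩
  rw [add_assoc, ← C_add, ← map_add]
  exact hirr _ fun x => (hx x).2

/-- The choice of the prime. -/
theorem exists_prime_choice (hq : 4 ≤ Fintype.card k) :
    ∃ l : ℕ, l.Prime ∧ l ∣ Fintype.card k - 1 ∧ (l = 2 → 4 ∣ Fintype.card k - 1) := by
  set N := Fintype.card k - 1
  by_cases hodd : ∃ l, l.Prime ∧ l ≠ 2 ∧ l ∣ N
  · obtain ⟨l, hl, hl2, hd⟩ := hodd
    exact ⟨l, hl, hd, fun h => absurd h hl2⟩
  push Not at hodd
  have hN : N = 2 ^ N.primeFactorsList.length :=
    Nat.eq_prime_pow_of_unique_prime_dvd (by omega) fun {l} hl hd =>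
      by_contra fun h => hodd l hl h hd
  obtain ⟨j, hj⟩ : ∃ j, N.primeFactorsList.length = j + 2 := by
    rcases h : N.primeFactorsList.length with _ | _ | j
    · rw [h] at hN; omega
    · rw [h] at hN; omega
    · exact ⟨j, rfl⟩
  rw [hj, pow_add] at hN
  exact ⟨2, Nat.prime_two, ⟨2 ^ j * 2, by rw [hN]; ring⟩, fun _ => ⟨2 ^ j, by rw [hN]; ring⟩⟩

/-- **Twin irreducibles** over every field with at least three elements. -/
theorem infinite_twins (hq : 3 ≤ Fintype.card k) {c : k} (hc : c ≠ 0) :
    {f : k[X] | f.Monic ∧ Irreducible f ∧ Irreducible (f + C c)}.Infinite := by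
  obtain h | h | h | h | h : Fintype.card k = 3 ∨ Fintype.card k = 4 ∨ Fintype.card k = 5 ∨
      Fintype.card k = 6 ∨ 6 < Fintype.card k := by omega
  · obtain ⟨f, hf, hd, hi, hic⟩ := exists_pair_three h hc
    exact infinite_of_pair (l := 13) (by norm_num) (by norm_num) (by norm_num)
      (by rw [h]; norm_num) hf hd hi hic
  · obtain ⟨f, hf, hd, hi, hic⟩ := exists_pair_four h hc
    exact infinite_of_pair (l := 5) (by norm_num) (by norm_num) (by norm_num)
      (by rw [h]; norm_num) hf hd hi hic
  · obtain ⟨f, hf, hd, hi, hic⟩ := exists_pair_five h hc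
    exact infinite_of_pair (l := 31) (by norm_num) (by norm_num) (by norm_num)
      (by rw [h]; norm_num) hf hd hi hic
  · exact absurd (h ▸ FiniteField.isPrimePow_card k : IsPrimePow 6) (by decide)
  obtain ⟨l, hl, hdvd, h4⟩ := exists_prime_choice (k := k) (by omega)
  have hy : ∃ y : k, ∀ i, ∀ b, b ^ l ≠ y - ![0, c] i := by
    rcases eq_or_ne l 2 with rfl | hl2
    · have hchar : ringChar k ≠ 2 := fun hr => by
        have h1 := FiniteField.even_card_iff_char_two.mp hr
        have h2 := Nat.dvd_trans (dvd_mul_right 2 2) (h4 rfl)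
        omega
      obtain ⟨x, h1, h2⟩ := exists_two_nonsquares hchar (by omega) hc
      refine ⟨x + c, Fin.forall_fin_two.mpr ⟨fun b => ?_, fun b => ?_⟩⟩
      · simpa using h2 b
      · simpa using h1 b
    · refine exists_forall_not_pow hdvd _ ?_
      have h3 : 3 ≤ l := lt_of_le_of_ne hl.two_le (Ne.symm hl2)
      have := Nat.div_le_div_left h3 (by norm_num) (a := Fintype.card k - 1)
      omega
  obtain ⟨y, hy⟩ := hy
  refine (infinite_of_not_pow hl h4 ![0, c] hy).mono fun f hf => ?_
  exact ⟨hf.1, by simpa using hf.2 0, by simpa using hf.2 1⟩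

/-- Over the field with two elements there are only the trivial twins. -/
theorem twins_two {f : (ZMod 2)[X]} (hi : Irreducible f) (hi' : Irreducible (f + 1)) :
    f = X ∨ f = X + 1 := by
  have hX : ∀ g : (ZMod 2)[X], Irreducible g → g.eval 0 = 0 → g = X := fun g hg h0 => by
    have hd : X ∣ g := X_dvd_iff.mpr (by rwa [coeff_zero_eq_eval_zero])
    obtain ⟨u, hu⟩ := (irreducible_X.associated_of_dvd hg hd)
    obtain ⟨c, hc, hcu⟩ := Polynomial.isUnit_iff.mp u.isUnit
    have hc1 : c = 1 := by
      rcases (show ∀ z : ZMod 2, z = 0 ∨ z = 1 by decide) c with e | e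
      · exact absurd e hc.ne_zero
      · exact e
    rw [← hu, ← hcu, hc1, C_1, mul_one]
  rcases (show ∀ z : ZMod 2, z = 0 ∨ z + 1 = 0 by decide) (f.eval 0) with e | e
  · exact Or.inl (hX f hi e)
  · right
    have h := hX (f + 1) hi' (by simpa using e)
    rw [← h, add_assoc, CharTwo.add_self_eq_zero, add_zero]

/-- **Tuples of irreducibles** with prescribed constant differences, for large `q`. -/
theorem infinite_tuples {r : ℕ} (hq4 : 4 ≤ Fintype.card k)
    (hq : (2 * r * r ^ r) ^ 2 + r * (r + 1) < Fintype.card k) (a : Fin r → k)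
    (ha : Function.Injective a) :
    {f : k[X] | f.Monic ∧ ∀ i, Irreducible (f + C (a i))}.Infinite := by
  obtain ⟨l, hl, hdvd, h4⟩ := exists_prime_choice hq4
  suffices hy : ∃ y : k, ∀ i, ∀ b, b ^ l ≠ y - a i by
    obtain ⟨y, hy⟩ := hy
    exact infinite_of_not_pow hl h4 a hy
  rcases le_or_gt l r with hlr | hlr
  · set ζ := Complex.exp (2 * Real.pi * Complex.I / l)
    have hζ : IsPrimitiveRoot ζ l := Complex.isPrimitiveRoot_exp l hl.pos.ne'
    obtain ⟨χ, hχ⟩ := MulChar.exists_mulChar_orderOf k hdvd hζ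
    have hbound : (2 * r * orderOf χ ^ r) ^ 2 < Fintype.card k := by
      refine lt_of_le_of_lt (Nat.pow_le_pow_left (Nat.mul_le_mul_left _
        (Nat.pow_le_pow_left (hχ.le.trans hlr) r)) 2) ?_
      omega
    obtain ⟨y, hy⟩ := CharacterSums.Summary.mulChar_patterns χ (fun i => -a i)
      (fun i j h => ha (neg_injective h)) (fun _ => ζ) (fun _ => by rw [hχ, hζ.pow_eq_one]) hbound
    refine ⟨y, fun i b hb => ?_⟩
    have h1 := hy i
    simp only [← sub_eq_add_neg] at h1
    rw [← hb, map_pow] at h1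
    rcases eq_or_ne b 0 with rfl | hb0
    · rw [MulChar.map_zero, zero_pow hl.pos.ne'] at h1
      exact hζ.ne_zero hl.pos.ne' h1.symm
    · have hone : χ b ^ l = 1 := by
        rw [← MulChar.pow_apply' χ hl.pos.ne', ← hχ, pow_orderOf_eq_one,
          MulChar.one_apply (Ne.isUnit hb0)]
      exact hζ.ne_one hl.one_lt (h1.symm.trans hone)
  · refine exists_forall_not_pow hdvd a ?_
    obtain ⟨e, he⟩ := hdvd
    rw [he, Nat.mul_div_cancel_left _ hl.pos, mul_add, mul_one]
    have h1 : r * (r + 1) < Fintype.card k := lt_of_le_of_lt (Nat.le_add_left _ _) hq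
    have hcard : Fintype.card k = l * e + 1 := by omega
    nlinarith [Nat.mul_le_mul_right e (Nat.succ_le_of_lt hlr)]

end FA.TwinIrreducibles
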